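import Fermat.Agent.S55.E1.SpecAlg3
import Fermat.Agent.S55.H783.Natural

/-!
# S55 engine E1, block ALG, leaf ALG10P (helper889): the pairing formula

`alg10Pair : ALG10PairSpec`:  `⟨tr f, inf x⟩ = inf_ι ⟨f, x⟩`.

Proof: `(trR, trP, ν)` is a morphism of short exact sequences of `G'`-modules
`(R', P', N') ⟶ res_π (R, P, N)`; naturality of `δ` (for `G'`, and under change of group
along `π`) and functoriality of `groupCohomology.map`.  The abstract form `alg10P_abstract`
holds for arbitrary short exact sequences.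
-/

set_option autoImplicit false

open CategoryTheory CategoryTheory.Limits groupCohomology

namespace Fermat.Agent.S55.E1.H889

open Fermat.Agent.S55.E1

noncomputable section

variable {G G' : Type} [Group G] [Group G'] (π : G' →* G)

/-- `map π φ ≫ map id ψ = map π (φ ≫ ψ)`. -/
theorem alg10P_map_comp_id {A : Rep.{0} ℤ G} {B C : Rep.{0} ℤ G'} (φ : Rep.res π A ⟶ B)
    (ψ : B ⟶ C) (n : ℕ) :
    groupCohomology.map π φ n ≫ groupCohomology.map (MonoidHom.id G') ψ n =
      groupCohomology.map π (φ ≫ ψ) n := by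
  have h := groupCohomology.map_comp (k := ℤ) π (MonoidHom.id G') φ ψ n
  rw [← h]
  exact groupCohomology.map_congr rfl rfl n

/-- `map id φ ≫ map π ψ = map π (res φ ≫ ψ)`. -/
theorem alg10P_map_id_comp {A B : Rep.{0} ℤ G} {C : Rep.{0} ℤ G'} (φ : A ⟶ B)
    (ψ : Rep.res π B ⟶ C) (n : ℕ) :
    groupCohomology.map (MonoidHom.id G) φ n ≫ groupCohomology.map π ψ n =
      groupCohomology.map π ((Rep.resFunctor π).map φ ≫ ψ) n := by
  have h := groupCohomology.map_comp (k := ℤ) (MonoidHom.id G) π φ ψ n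
  rw [← h]
  exact groupCohomology.map_congr rfl rfl n

/-- Abstract pairing formula: short exact `0 → A → B → C → 0` over `G` and
`0 → A' → B' → C' → 0` over `G'`, a morphism `(a, b, c)` of short exact sequences to the
restriction along `π`, and a section `s` of `c`. -/
theorem alg10P_abstract {A B C : Rep.{0} ℤ G} {A' B' C' : Rep.{0} ℤ G'}
    (i : A ⟶ B) (p : B ⟶ C) (hip : i ≫ p = 0)
    (hS : (ShortComplex.mk i p hip).ShortExact)
    (i' : A' ⟶ B') (p' : B' ⟶ C') (hip' : i' ≫ p' = 0)
    (hS' : (ShortComplex.mk i' p' hip').ShortExact)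
    (a : A' ⟶ Rep.res π A) (b : B' ⟶ Rep.res π B) (c : C' ⟶ Rep.res π C)
    (hab : a ≫ (Rep.resFunctor π).map i = i' ≫ b)
    (hbc : b ≫ (Rep.resFunctor π).map p = p' ≫ c)
    (s : Rep.res π C ⟶ C') (hs : s ≫ c = 𝟙 _)
    {X : Rep.{0} ℤ G} {X' : Rep.{0} ℤ G'} (ι : Rep.res π X ⟶ X') (f : A ⟶ X)
    (x : groupCohomology C 1) :
    (groupCohomology.map (MonoidHom.id G') (a ≫ (Rep.resFunctor π).map f ≫ ι) 2).hom
        ((groupCohomology.δ hS' 1 2 rfl).hom ((groupCohomology.map π s 1).hom x)) =
      (groupCohomology.map π ι 2).hom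
        ((groupCohomology.map (MonoidHom.id G) f 2).hom ((groupCohomology.δ hS 1 2 rfl).hom x)) := by
  have hres : ((ShortComplex.mk i p hip).map (Rep.resFunctor π)).ShortExact :=
    (Rep.shortExact_res π).2 hS
  let Ψ : ShortComplex.mk i' p' hip' ⟶ (ShortComplex.mk i p hip).map (Rep.resFunctor π) :=
    { τ₁ := a
      τ₂ := b
      τ₃ := c
      comm₁₂ := hab
      comm₂₃ := hbc }
  -- naturality of `δ` for the morphism of presentations over `G'`
  have h1 := groupCohomology.δ_naturality hS' hres Ψ 1 2 rfl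
  -- naturality of `δ` under change of group
  have h2 := Fermat.Agent.S55.H783.δ_naturality_map π hS hres (𝟙 _) 1 2 rfl
  have h1x := congrArg (fun t => t.hom ((groupCohomology.map π s 1).hom x)) h1
  have h2x := congrArg (fun t => t.hom x) h2
  have h4 : groupCohomology.map π s 1 ≫ groupCohomology.map (MonoidHom.id G') c 1 =
      groupCohomology.map π (𝟙 (Rep.res π C)) 1 := by
    rw [alg10P_map_comp_id, hs]
  have h4x := congrArg (fun t => t.hom x) h4
  have h5 := groupCohomology.map_id_comp (k := ℤ) a ((Rep.resFunctor π).map f ≫ ι) 2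
  have h5x := congrArg (fun t => t.hom
    ((groupCohomology.δ hS' 1 2 rfl).hom ((groupCohomology.map π s 1).hom x))) h5
  have h6 : groupCohomology.map π (𝟙 (Rep.res π A)) 2 ≫
      groupCohomology.map (MonoidHom.id G') ((Rep.resFunctor π).map f ≫ ι) 2 =
      groupCohomology.map (MonoidHom.id G) f 2 ≫ groupCohomology.map π ι 2 := by
    rw [alg10P_map_comp_id, alg10P_map_id_comp, Category.id_comp]
  have h6x := congrArg (fun t => t.hom ((groupCohomology.δ hS 1 2 rfl).hom x)) h6
  clear h1 h2 h4 h5 h6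
  simp only [ModuleCat.hom_comp, LinearMap.comp_apply] at h1x h2x h4x h5x h6x
  rw [h5x]
  erw [h1x]
  erw [h4x]
  erw [← h2x]
  exact h6x

/-- **ALG10 (pairing).** -/
theorem alg10Pair : ALG10PairSpec := by
  intro G G' _ _ π N N' ν X X' ι f x
  exact alg10P_abstract π (stdι N) (stdε N) (kernel.condition (stdε N)) (stdSC_shortExact N)
    (stdι N') (stdε N') (kernel.condition (stdε N')) (stdSC_shortExact N')
    (trR π ν.hom) (trP π ν.hom) ν.hom (trR_stdι π ν.hom) (trP_stdε π ν.hom)
    ν.inv ν.inv_hom_id ι f x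

end

end Fermat.Agent.S55.E1.H889
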